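import Mathlib
import Fermat.Agent.S48.Top.Spec

/-!
# S48 piece INT (= P1): rational structure of `S₁(Γ₁(M))` and conjugate eigenforms
FROZEN interface (Props only, no proofs, no `sorry`).  Architect: helper668.
Plan, owners, status: `coord/S48-INT.md` on branch `origin/helper668`.

## Route (no q-expansion principle, no algebraic geometry)

* `G₁ = θ(z)²`, `G₂ = θ(z + 1/2)²` (`θ = ∑ q^{n²}`) are modular forms of weight `1` on `Γ₁(8)` with
  integer `q`-expansion `1 + ...`, WITHOUT ZEROS on `ℍ` (`(θ₂ θ₃ θ₄)⁸ = c Δ`) and without common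
  zero at the cusps (`SL₂(ℤ)` permutes `θ₂⁸, θ₃⁸, θ₄⁸`; only `θ₂` vanishes at `∞`)      (AUX).
* Hence for `8 ∣ M`:  `S₁(Γ₁(M)) ≃ {(u, v) ∈ S₂(Γ₁(M))² : u G₂ = v G₁}`, `f ↦ (f G₁, f G₂)`, and the
  right-hand side is cut out by linear equations with INTEGER coefficients in an integral basis
  of `S₂(Γ₁(M))`; dividing by `G₁ ∈ 1 + qℤ[[q]]` preserves integrality.  So an integral structure
  in weight `2` (input W2 = Eichler–Shimura for `Γ₁(M)`, a by-product of TOWER A1) gives one in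
  weight `1`                                                                             (DIV).
* All `a_n(f)` then lie in a finitely generated `ℤ`-submodule `Λ ⊆ ℂ`.  By the Hecke relations the
  ring `ℤ[ε][a_p : p ∤ N]` is the `ℤ[ε]`-span of the `a_n`, `(n, N) = 1`, hence contained in
  `ℤ[ε] Λ`: it is an order of a number field `K`, and the `a_p` are integral             (ORD).
  NO Hecke operators are needed, only the formal relations `hT`.
* The space of forms of level `M` satisfying the (linear!) relations `hT` for `(a_p, ε)` is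
  defined over `K`, and `a₁ ≠ 0` on it: there is a solution `f₀` with coordinates in `K` and
  `a₁ = 1`; apply `τ : K → ℂ` to the coordinates                                          (CONJ).

The conjugate forms are obtained at level `M = 8N` (not `N`): `EigenConjStatement'` below is
`Top.EigenConjStatement` with the level of `f'` relaxed to a multiple of `N`.  This is all that
VAL (Deligne–Serre Prop. 5.5) needs: Rankin is applied to `f'` at its own level, and finitely
many primes do not change an upper density.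
-/

set_option autoImplicit false

open CongruenceSubgroup UpperHalfPlane
open scoped MatrixGroups ModularForm

namespace Fermat.Agent.S48.INT

open Fermat.Agent.S48.Top

/-! ## Integral structures for `Γ₁(M)` (same shape as the Prelude's `CuspForm.HasIntegralStructure`) -/

/-- The `q`-expansion of `f` at `∞` has integer coefficients. -/
def IsIntQ {M : ℕ} {k : ℤ} (f : CuspForm (Gamma1 M) k) : Prop :=
  ∀ n : ℕ, ∃ m : ℤ, ModularFormClass.qCoeff f n = (m : ℂ)

/-- `S_k(Γ₁(M))` is spanned over `ℂ` by forms with integer `q`-expansion. -/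
def IntStr (M : ℕ) (k : ℤ) : Prop :=
  Submodule.span ℂ {f : CuspForm (Gamma1 M) k | IsIntQ f} = ⊤

/-- The hypotheses of S48 for a function `f : ℍ → ℂ` (`Top.IsEigen N ε f` is, by definition,
`IsEigenFun N ε ⇑f`): `a₁ = 1` and the formal Hecke relations at the primes `p ∤ N`. -/
def IsEigenFun (N : ℕ) (ε : DirichletCharacter ℂ N) (f : ℍ → ℂ) : Prop :=
  ModularFormClass.qCoeff f 1 = 1 ∧
  ∀ p : ℕ, p.Prime → ¬ p ∣ N → ∀ n : ℕ,
    ModularFormClass.qCoeff f (p * n) +
        ε (p : ZMod N) * (if p ∣ n then ModularFormClass.qCoeff f (n / p) else 0) =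
      ModularFormClass.qCoeff f p * ModularFormClass.qCoeff f n

/-! ## External input -/

/-- **W2** (external input, by-product of TOWER A1: Eichler–Shimura + Hecke duality for `Γ₁(M)`,
the `Γ₁`-analogue of the landed S23).  Only levels divisible by `8` are used. -/
def IntStrTwoStatement : Prop :=
  ∀ M : ℕ, M ≠ 0 → 8 ∣ M → IntStr M 2

/-! ## The pieces -/

/-- **AUX**: two weight-one forms on `Γ₁(8)` with integer `q`-expansion `1 + O(q)`, without zeros
on `ℍ`, and such that at every cusp (`= γ ∞`, `γ ∈ SL₂(ℤ)`) one of them is bounded below. -/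
def AuxStatement : Prop :=
  ∃ G₁ G₂ : ModularForm (Gamma1 8) 1,
    (∀ z : ℍ, G₁ z ≠ 0) ∧ (∀ z : ℍ, G₂ z ≠ 0) ∧
    (∀ n : ℕ, ∃ m : ℤ, ModularFormClass.qCoeff G₁ n = (m : ℂ)) ∧
    ModularFormClass.qCoeff G₁ 0 = 1 ∧
    (∀ n : ℕ, ∃ m : ℤ, ModularFormClass.qCoeff G₂ n = (m : ℂ)) ∧
    ModularFormClass.qCoeff G₂ 0 = 1 ∧
    ∀ γ : SL(2, ℤ), ∃ c : ℝ, 0 < c ∧ ∃ Y : ℝ,
      (∀ z : ℍ, Y ≤ z.im → c ≤ ‖((G₁ : ℍ → ℂ) ∣[(1 : ℤ)] γ) z‖) ∨
      (∀ z : ℍ, Y ≤ z.im → c ≤ ‖((G₂ : ℍ → ℂ) ∣[(1 : ℤ)] γ) z‖)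

/-- **RES**: a cusp form of level `N` is a cusp form of level `M` for `N ∣ M` (same function). -/
def RestrictStatement : Prop :=
  ∀ (N M : ℕ) (k : ℤ), N ∣ M → M ≠ 0 → ∀ f : CuspForm (Gamma1 N) k,
    ∃ g : CuspForm (Gamma1 M) k, (g : ℍ → ℂ) = f

/-- **DIVF** (function level): if `u, v ∈ S₂(Γ₁(M))`, `8 ∣ M`, satisfy `u G₂ = v G₁` then `u / G₁`
is a cusp form of weight one. -/
def DivFunStatement : Prop :=
  ∀ G₁ G₂ : ModularForm (Gamma1 8) 1,
    (∀ z : ℍ, G₁ z ≠ 0) → (∀ z : ℍ, G₂ z ≠ 0) →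
    (∀ γ : SL(2, ℤ), ∃ c : ℝ, 0 < c ∧ ∃ Y : ℝ,
      (∀ z : ℍ, Y ≤ z.im → c ≤ ‖((G₁ : ℍ → ℂ) ∣[(1 : ℤ)] γ) z‖) ∨
      (∀ z : ℍ, Y ≤ z.im → c ≤ ‖((G₂ : ℍ → ℂ) ∣[(1 : ℤ)] γ) z‖)) →
    ∀ M : ℕ, M ≠ 0 → 8 ∣ M → ∀ u v : CuspForm (Gamma1 M) 2,
      (∀ z : ℍ, u z * G₂ z = v z * G₁ z) →
      ∃ f : CuspForm (Gamma1 M) 1, ∀ z : ℍ, f z * G₁ z = u z

/-- **DIV**: an integral structure in weight two gives one in weight one (levels divisible by 8). -/
def DivStatement : Prop :=
  AuxStatement → DivFunStatement → ∀ M : ℕ, M ≠ 0 → 8 ∣ M → IntStr M 2 → IntStr M 1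

/-- **LAT**: with an integral structure, the `q`-coefficients of any form lie in a finitely
generated `ℤ`-submodule of `ℂ`. -/
def LatticeStatement : Prop :=
  ∀ (M : ℕ) (k : ℤ), IntStr M k → ∀ f : CuspForm (Gamma1 M) k,
    ∃ Λ : Submodule ℤ ℂ, Λ.FG ∧ ∀ n : ℕ, ModularFormClass.qCoeff f n ∈ Λ

/-- The field generated by the eigenvalues `a_p` (`p ∤ N`) and the values of `ε`. -/
noncomputable def eigenField (N : ℕ) (ε : DirichletCharacter ℂ N) (f : ℍ → ℂ) : IntermediateField ℚ ℂ :=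
  IntermediateField.adjoin ℚ
    ({x : ℂ | ∃ p : ℕ, p.Prime ∧ ¬ p ∣ N ∧ x = ModularFormClass.qCoeff f p} ∪
      Set.range fun a : ZMod N => ε a)

/-- **ORD** (pure algebra on the sequence `a_n`): if all coefficients of an eigenform lie in a
finitely generated `ℤ`-module, the eigenvalues are algebraic integers and generate a number field. -/
def OrderStatement : Prop :=
  ∀ (N : ℕ) [NeZero N] (ε : DirichletCharacter ℂ N) (f : ℍ → ℂ),
    IsEigenFun N ε f →
    (∃ Λ : Submodule ℤ ℂ, Λ.FG ∧ ∀ n : ℕ, ModularFormClass.qCoeff f n ∈ Λ) →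
    FiniteDimensional ℚ (eigenField N ε f) ∧
      ∀ p : ℕ, p.Prime → ¬ p ∣ N → IsIntegral ℤ (ModularFormClass.qCoeff f p)

/-- **CONJ**: conjugate eigenforms, at a level `M` (multiple of `N`) carrying an integral
structure; `f` is a form of level `M` satisfying the relations of level `N`. -/
def ConjStatement : Prop :=
  ∀ (N : ℕ) [NeZero N] (ε : DirichletCharacter ℂ N) (M : ℕ) [NeZero M], N ∣ M → IntStr M 1 →
    ∀ f : CuspForm (Gamma1 M) 1, IsEigenFun N ε f →
    ∀ τ : eigenField N ε f →ₐ[ℚ] ℂ,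
      ∃ (ε' : DirichletCharacter ℂ M) (f' : CuspForm (Gamma1 M) 1), IsEigen M ε' f' ∧
        ∀ p : ℕ, p.Prime → ¬ p ∣ M → ∀ x : eigenField N ε f,
          (x : ℂ) = ModularFormClass.qCoeff f p → ModularFormClass.qCoeff f' p = τ x

/-! ## Output -/

/-- `Top.EigenConjStatement` with the level of the conjugate form relaxed to a multiple of `N`. -/
def EigenConjStatement' : Prop :=
  ∀ (N : ℕ) [NeZero N] (ε : DirichletCharacter ℂ N) (f : CuspForm (Gamma1 N) 1),
    IsEigen N ε f → ∃ K : IntermediateField ℚ ℂ, FiniteDimensional ℚ K ∧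
      (∀ p : ℕ, p.Prime → ¬ p ∣ N →
        ModularFormClass.qCoeff f p ∈ K ∧ IsIntegral ℤ (ModularFormClass.qCoeff f p)) ∧
      ∀ τ : K →ₐ[ℚ] ℂ, ∃ (M : ℕ) (_ : NeZero M) (ε' : DirichletCharacter ℂ M)
        (f' : CuspForm (Gamma1 M) 1), N ∣ M ∧
        IsEigen M ε' f' ∧ ∀ p : ℕ, p.Prime → ¬ p ∣ M → ∀ x : K,
          (x : ℂ) = ModularFormClass.qCoeff f p → ModularFormClass.qCoeff f' p = τ x

/-- **VAL'**: the consumer of `EigenConjStatement'` (replaces `Top.ValuesPiece`). -/
def ValuesPiece' : Prop := RankinStatement → EigenConjStatement' → ValuesStatement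

/-- **ASM**: assembly of the piece. -/
def AssemblyPiece : Prop :=
  IntStrTwoStatement → AuxStatement → DivFunStatement → DivStatement → RestrictStatement →
    LatticeStatement → OrderStatement → ConjStatement → EigenConjStatement'

end Fermat.Agent.S48.INT
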